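/-
Cluster B, KRONECKER congruence (helper20).  Formal part: Laurent series only.

* `scaleL z` : the substitution `q ↦ z q` (the `n`-th coefficient is multiplied by `z ^ n`).
* `pow_char_eq_qExpand_frobenius` : in characteristic `ℓ`, `y ^ ℓ = (Frob y)(q ^ ℓ)`.
* `exists_qExpand_eq_of_scaleL_eq` : a series fixed by `q ↦ ζ q`, `ζ` a primitive `ℓ`-th root
  of unity in a domain, is a series in `q ^ ℓ`.
-/
import Mathlib
import Fermat.Prelude.Def_ModularCurve_X0ModL

set_option autoImplicit false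

noncomputable section

namespace Fermat.Agent.Kronecker

open ModularCurve

section Scale

variable {R : Type*} [CommRing R]


/-- underlying function of `scaleL`. -/
def scaleFun (z : Rˣ) (y : LaurentSeries R) : LaurentSeries R where
  coeff n := ((z ^ n : Rˣ) : R) * y.coeff n
  isPWO_support' := y.isPWO_support.mono (fun n hn => by
    simp only [Function.mem_support, ne_eq] at hn
    rw [HahnSeries.mem_support]
    intro h
    exact hn (by rw [h, mul_zero]))

theorem scaleFun_coeff (z : Rˣ) (y : LaurentSeries R) (n : ℤ) :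
    (scaleFun z y).coeff n = ((z ^ n : Rˣ) : R) * y.coeff n := rfl

theorem scaleFun_support (z : Rˣ) (y : LaurentSeries R) :
    (scaleFun z y).support = y.support := by
  ext n
  rw [HahnSeries.mem_support, HahnSeries.mem_support, scaleFun_coeff]
  exact not_congr (Units.mul_right_eq_zero _)

/-- The substitution `q ↦ z q` on Laurent series, `z` a unit. -/
def scaleL (z : Rˣ) : LaurentSeries R →+* LaurentSeries R where
  toFun := scaleFun z
  map_zero' := by
    ext n
    simp [scaleFun_coeff]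
  map_one' := by
    ext n
    rw [scaleFun_coeff, HahnSeries.coeff_one]
    split_ifs with h
    · subst h; simp
    · simp
  map_add' x y := by
    ext n
    simp [scaleFun_coeff, mul_add]
  map_mul' x y := by
    ext n
    rw [scaleFun_coeff, HahnSeries.coeff_mul, HahnSeries.coeff_mul, Finset.mul_sum]
    refine Finset.sum_congr ?_ fun ij hij => ?_
    · ext ij
      rw [Finset.mem_antidiagonal, Finset.mem_antidiagonal, scaleFun_support,
        scaleFun_support]
    · rw [Finset.mem_antidiagonal] at hij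
      rw [scaleFun_coeff, scaleFun_coeff, ← hij.2.2, zpow_add, Units.val_mul]
      ring

theorem scaleL_coeff (z : Rˣ) (y : LaurentSeries R) (n : ℤ) :
    (scaleL z y).coeff n = ((z ^ n : Rˣ) : R) * y.coeff n := rfl

theorem scaleL_one (y : LaurentSeries R) : scaleL (1 : Rˣ) y = y := by
  ext n
  simp [scaleL_coeff]

theorem scaleL_mul (z w : Rˣ) (y : LaurentSeries R) :
    scaleL (z * w) y = scaleL z (scaleL w y) := by
  ext n
  rw [scaleL_coeff, scaleL_coeff, scaleL_coeff, mul_zpow, Units.val_mul, mul_assoc]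

theorem scaleL_qExpand (N : ℕ) [NeZero N] (z : Rˣ) (y : LaurentSeries R) :
    scaleL z (qExpand R N y) = qExpand R N (scaleL (z ^ N) y) := by
  ext n
  by_cases hn : (N : ℤ) ∣ n
  · obtain ⟨m, rfl⟩ := hn
    rw [scaleL_coeff, qExpand_coeff_mul, qExpand_coeff_mul, scaleL_coeff, ← zpow_natCast,
      ← zpow_mul]
  · rw [scaleL_coeff, qExpand_coeff_of_not_dvd N _ hn, qExpand_coeff_of_not_dvd N _ hn, mul_zero]

theorem coeffMap_scaleL {S : Type*} [CommRing S] (f : R →+* S) (z : Rˣ) (y : LaurentSeries R) :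
    coeffMap f (scaleL z y) = scaleL (Units.map (f : R →* S) z) (coeffMap f y) := by
  ext n
  rw [coeffMap_coeff, scaleL_coeff, scaleL_coeff, coeffMap_coeff, map_mul, ← map_zpow]
  rfl

/-- A series fixed by `q ↦ ζ q`, `ζ` a primitive `ℓ`-th root of unity in a domain, is a series in
`q ^ ℓ`. -/
theorem exists_qExpand_eq_of_scaleL_eq [IsDomain R] (ℓ : ℕ) [NeZero ℓ] (ζ : Rˣ)
    (hζ : IsPrimitiveRoot ζ ℓ) (P : LaurentSeries R) (hP : scaleL ζ P = P) :
    ∃ W : LaurentSeries R, qExpand R ℓ W = P := by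
  have hℓ : (0 : ℤ) < ℓ := by exact_mod_cast Nat.pos_of_ne_zero (NeZero.ne ℓ)
  have hzero : ∀ n : ℤ, ¬ (ℓ : ℤ) ∣ n → P.coeff n = 0 := by
    intro n hn
    have h1 := congrArg (fun Q : LaurentSeries R => Q.coeff n) hP
    simp only [scaleL_coeff] at h1
    have h2 : (((ζ ^ n : Rˣ) : R) - 1) * P.coeff n = 0 := by rw [sub_mul, h1, one_mul, sub_self]
    rcases mul_eq_zero.mp h2 with h3 | h3
    · exfalso
      apply hn
      have h4 : (ζ ^ n : Rˣ) = 1 := by
        apply Units.ext
        rw [Units.val_one]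
        exact sub_eq_zero.mp h3
      exact (hζ.zpow_eq_one_iff_dvd n).mp h4
    · exact h3
  have hbdd : BddBelow (Function.support fun m : ℤ => P.coeff ((ℓ : ℤ) * m)) := by
    by_cases hP0 : P = 0
    · subst hP0
      refine ⟨0, fun m hm => ?_⟩
      simp at hm
    · refine ⟨min P.order 0, fun m hm => ?_⟩
      rw [Function.mem_support] at hm
      have h1 : P.order ≤ (ℓ : ℤ) * m := HahnSeries.order_le_of_coeff_ne_zero hm
      by_cases hm0 : 0 ≤ m
      · exact le_trans (min_le_right _ _) hm0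
      · rw [not_le] at hm0
        have h2 : (ℓ : ℤ) * m ≤ m := by nlinarith
        exact le_trans (min_le_left _ _) (le_trans h1 h2)
  refine ⟨⟨fun m => P.coeff ((ℓ : ℤ) * m), hbdd.isWF.isPWO⟩, ?_⟩
  ext n
  by_cases hn : (ℓ : ℤ) ∣ n
  · obtain ⟨m, rfl⟩ := hn
    rw [qExpand_coeff_mul]
  · rw [qExpand_coeff_of_not_dvd ℓ _ hn, hzero n hn]

/-- The product of the conjugates `y(ζ^b q)`, `b < ℓ`, is fixed by `q ↦ ζ q`. -/
theorem scaleL_prod_scaleL (ℓ : ℕ) (ζ : Rˣ) (hζ : ζ ^ ℓ = 1) (y : LaurentSeries R) :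
    scaleL ζ (∏ b ∈ Finset.range ℓ, scaleL (ζ ^ b) y) = ∏ b ∈ Finset.range ℓ, scaleL (ζ ^ b) y := by
  rw [map_prod]
  have h1 : ∀ b, scaleL ζ (scaleL (ζ ^ b) y) = scaleL (ζ ^ (b + 1)) y := by
    intro b
    rw [← scaleL_mul, pow_succ']
  simp_rw [h1]
  cases ℓ with
  | zero => simp
  | succ n =>
    rw [Finset.prod_range_succ, hζ, Finset.prod_range_succ' (fun b => scaleL (ζ ^ b) y) n,
      pow_zero]


end Scale

section Frobenius


variable {k : Type*} [CommRing k]

theorem qExpand_ofPowerSeries' (n : ℕ) [NeZero n] (P : PowerSeries k) :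
    qExpand k n (HahnSeries.ofPowerSeries ℤ k P) =
      HahnSeries.ofPowerSeries ℤ k (PowerSeries.expand n (NeZero.ne n) P) := by
  ext m
  by_cases hm : (n : ℤ) ∣ m
  · obtain ⟨c, rfl⟩ := hm
    rw [qExpand_coeff_mul]
    rcases le_or_gt 0 c with hc | hc
    · lift c to ℕ using hc
      rw [HahnSeries.ofPowerSeries_apply_coeff]
      have : ((n : ℤ) * (c : ℤ)) = ((n * c : ℕ) : ℤ) := by push_cast; ring
      rw [this, HahnSeries.ofPowerSeries_apply_coeff, PowerSeries.coeff_expand_mul]
    · have hn : (0 : ℤ) < n := by exact_mod_cast Nat.pos_of_ne_zero (NeZero.ne n)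
      rw [ofPowerSeries_coeff_of_neg _ hc, ofPowerSeries_coeff_of_neg _ (by nlinarith)]
  · rw [qExpand_coeff_of_not_dvd n _ hm]
    rcases le_or_gt 0 m with hc | hc
    · lift m to ℕ using hc
      rw [HahnSeries.ofPowerSeries_apply_coeff, PowerSeries.coeff_expand_of_not_dvd]
      intro h
      exact hm (by exact_mod_cast h)
    · rw [ofPowerSeries_coeff_of_neg _ hc]

variable (ℓ : ℕ) [Fact ℓ.Prime] [CharP k ℓ]

/-- In characteristic `ℓ`:  `y ^ ℓ = (Frob y)(q ^ ℓ)`. -/
theorem pow_char_eq_qExpand_frobenius (y : LaurentSeries k) :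
    y ^ ℓ = qExpand k ℓ (coeffMap (frobenius k ℓ) y) := by
  have : NeZero ℓ := ⟨(Fact.out : ℓ.Prime).ne_zero⟩
  have : ExpChar k ℓ := ExpChar.prime Fact.out
  conv_lhs => rw [← LaurentSeries.single_order_mul_powerSeriesPart y]
  conv_rhs => rw [← LaurentSeries.single_order_mul_powerSeriesPart y]
  rw [mul_pow, map_mul, map_mul, coeffMap_single, qExpand_single, coeffMap_ofPowerSeries,
    qExpand_ofPowerSeries', ← map_pow (HahnSeries.ofPowerSeries ℤ k), HahnSeries.single_pow,
    one_pow, map_one (frobenius k ℓ), nsmul_eq_mul]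
  congr 2
  have h := MvPowerSeries.map_frobenius_expand (σ := Unit) ℓ (NeZero.ne ℓ)
    (f := (y.powerSeriesPart : MvPowerSeries Unit k))
  rw [← PowerSeries.map_expand]
  exact h.symm

end Frobenius


end Fermat.Agent.Kronecker
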