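/-
Cluster B, KRONECKER congruence (helper20): analytic half of the product formula, part 1b:
expansion of the generators `(T^b δ⁻¹) • j_{dℓ}`.
-/
import Mathlib
import Fermat.Agent.Lib.Kronecker.ConjGens

set_option autoImplicit false
noncomputable section
namespace Fermat.Agent.Kronecker
open ModularCurve UpperHalfPlane Fermat.Agent.S24 Fermat.Agent.S24.GensExp
open scoped MatrixGroups

theorem scaleL_single {R : Type*} [CommRing R] (z : Rˣ) (n : ℤ) (r : R) :
    scaleL z (HahnSeries.single n r) = HahnSeries.single n (((z ^ n : Rˣ) : R) * r) := by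
  ext m
  rw [scaleL_coeff]
  by_cases hm : m = n
  · subst hm
    rw [HahnSeries.coeff_single_same, HahnSeries.coeff_single_same]
  · rw [HahnSeries.coeff_single_of_ne hm, HahnSeries.coeff_single_of_ne hm, mul_zero]

theorem scaleL_algebraMap (z : Qbˣ) (c : Qb) :
    scaleL z (algebraMap Qb (LaurentSeries Qb) c) = algebraMap Qb (LaurentSeries Qb) c := by
  rw [algebraMap_laurentSeries_eq_single, scaleL_single, zpow_zero, Units.val_one, one_mul]

theorem qExpand_algebraMap (n : ℕ) [NeZero n] (c : Qb) :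
    qExpand Qb n (algebraMap Qb (LaurentSeries Qb) c) = algebraMap Qb (LaurentSeries Qb) c := by
  rw [algebraMap_laurentSeries_eq_single, qExpand_single, mul_zero]

theorem deltaMat_inv_smul_jd' (p q : ℤ) (N d ℓ : ℕ) [NeZero d] [NeZero ℓ] [NeZero (d * ℓ)]
    (hd : d ∣ N) (h : p * ℓ - q * N = 1) :
    ((deltaMat p q N ℓ h)⁻¹ • jd (d * ℓ) : Fun) =
      fun τ => jFun (aff d ℓ 0 (Nat.pos_of_ne_zero (NeZero.ne d))
        (Nat.pos_of_ne_zero (NeZero.ne ℓ)) τ) := by
  obtain ⟨N', rfl⟩ := hd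
  exact deltaMat_inv_smul_jd p q N' d ℓ h

theorem T_mem_Gamma0 (N : ℕ) : ModularGroup.T ∈ CongruenceSubgroup.Gamma0 N := by
  apply EmbFStab.mem_Gamma0_of_dvd
  simp [ModularGroup.T]

/-- Expansion of the generator: `(T^b δ⁻¹) • j_{dℓ}` has the expansion `j_d (ζ^b u^N)`. -/
theorem hasExp_conj_jd (p q : ℤ) (N d ℓ : ℕ) [NeZero N] [NeZero d] [NeZero ℓ] [NeZero (d * ℓ)]
    (hd : d ∣ N) (h : p * ℓ - q * N = 1) (z : Qbˣ)
    (hz : iota (z : Qb) = Complex.exp (2 * Real.pi * Complex.I / ((N * ℓ : ℕ) : ℂ))) (b : ℕ) :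
    HasExp (N * ℓ) ((ModularGroup.T ^ b * (deltaMat p q N ℓ h)⁻¹) • jd (d * ℓ))
      (qExpand Qb N (scaleL ((z⁻¹ ^ N) ^ b) (qExpand Qb d (jqModC Qb)))) := by
  rw [mul_smul, deltaMat_inv_smul_jd' p q N d ℓ hd h]
  have h1 := hasExp_T_pow_smul (N * ℓ) z hz (hasExp_jFun_aff N d ℓ) b
  have e : scaleL (z⁻¹ ^ b) (qExpand Qb (d * N) (jqModC Qb)) =
      qExpand Qb N (scaleL ((z⁻¹ ^ N) ^ b) (qExpand Qb d (jqModC Qb))) := by
    rw [qExpand_congr (mul_comm d N), ← qExpand_qExpand, scaleL_qExpand, pow_right_comm]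
  rw [← e]
  exact h1

end Fermat.Agent.Kronecker
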