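import Mathlib
import Fermat.Prelude.Def_ModularCurve_X0ModL
import Fermat.Prelude.Thm_ModularCurve_coeffMap_qExpand
import Fermat.Agent.Lib.Kronecker.Formal

set_option autoImplicit false
noncomputable section
namespace Fermat.Agent.Kronecker
open ModularCurve

section Congruence

variable {A k : Type*} [CommRing A] [CommRing k] [IsReduced k]
variable (ℓ : ℕ) [Fact ℓ.Prime] [CharP k ℓ]

theorem units_eq_one_of_pow_char_eq_one (z : kˣ) (hz : z ^ ℓ = 1) : z = 1 := by
  apply Units.ext
  rw [Units.val_one]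
  have h1 : ((z : k) - 1) ^ ℓ = 0 := by
    rw [sub_pow_char, one_pow, ← Units.val_pow_eq_pow_val, hz, Units.val_one, sub_self]
  exact sub_eq_zero.mp (IsReduced.eq_zero _ ⟨ℓ, h1⟩)

/-- **Kronecker congruence, formal form.** -/
theorem kronecker_formal (π : A →+* k) (ζ : Aˣ) (hζ : ζ ^ ℓ = 1) (y W : LaurentSeries A)
    (hW : qExpand A ℓ W = ∏ b ∈ Finset.range ℓ, scaleL (ζ ^ b) y) :
    coeffMap π W = coeffMap (frobenius k ℓ) (coeffMap π y) := by
  have : NeZero ℓ := ⟨(Fact.out : ℓ.Prime).ne_zero⟩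
  apply qExpand_injective (R := k) ℓ
  rw [← pow_char_eq_qExpand_frobenius, ← coeffMap_qExpand, hW, map_prod]
  have h1 : Units.map (π : A →* k) ζ = 1 :=
    units_eq_one_of_pow_char_eq_one ℓ _ (by rw [← map_pow, hζ, map_one])
  have h2 : ∀ b ∈ Finset.range ℓ, coeffMap π (scaleL (ζ ^ b) y) = coeffMap π y := by
    intro b _
    rw [coeffMap_scaleL, map_pow, h1, one_pow, scaleL_one]
  rw [Finset.prod_congr rfl h2, Finset.prod_const, Finset.card_range]

end Congruence
end Fermat.Agent.Kronecker
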