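/-
Cluster B, KRONECKER congruence (helper20): the statement consumed by the assembly of
`F3G.FrobPow N` (hence `F3.TorsionFrobQuadratic N`).  Definition only.

`KroneckerAt N`: for `ℓ ∤ N`, a place `A` of `ℚ̄` over `ℓ`, a Frobenius element `σ` at `A` and `f` in the
Gauss valuation ring `O_v ⊂ F_N`,  `T_ℓ f = Norm_{F_{Nℓ}/F_N} (f(q^ℓ))` lies in `O_v` and
    `ρ (T_ℓ f) = ρ (σ f) · ρ (σ⁻¹ f) ^ ℓ`        (`ρ` = residue map of the Gauss valuation).
-/
import Fermat.Agent.Lib.GaussInt.Basic
import Fermat.Agent.F3.Galois.TorsionReduce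

set_option autoImplicit false

noncomputable section

namespace Fermat.Agent.Kronecker

open ModularCurve Fermat.Agent.F3 Fermat.Agent.F3G Fermat.Agent.GaussInt

/-- KRONECKER congruence at level `N`, in terms of the Gauss valuation ring. -/
def KroneckerAt (N : ℕ) [NeZero N] : Prop :=
  ∀ (ℓ : ℕ) (hℓ : ℓ.Prime), ¬ ℓ ∣ N →
    ∀ A : ValuationSubring (AlgebraicClosure ℚ), A.LiesOverPrime ℓ →
      ∀ σ : GQ, A.IsFrobeniusAt σ ℓ →
        ∀ f : FBar N,
          (f : LaurentSeries (AlgebraicClosure ℚ)) ∈ gaussSub A (modularFunctionFieldBar N) →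
          (((haveI : NeZero ℓ := ⟨hℓ.ne_zero⟩; heckeFun (AlgebraicClosure ℚ) N ℓ f) : FBar N) :
              LaurentSeries (AlgebraicClosure ℚ)) ∈ gaussSub A (modularFunctionFieldBar N) ∧
            gaussResFun A (modularFunctionFieldBar N)
                (((haveI : NeZero ℓ := ⟨hℓ.ne_zero⟩; heckeFun (AlgebraicClosure ℚ) N ℓ f) : FBar N) :
                  LaurentSeries (AlgebraicClosure ℚ)) =
              gaussResFun A (modularFunctionFieldBar N)
                  ((galFun N σ f : FBar N) : LaurentSeries (AlgebraicClosure ℚ)) *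
                gaussResFun A (modularFunctionFieldBar N)
                  ((galFun N σ⁻¹ f : FBar N) : LaurentSeries (AlgebraicClosure ℚ)) ^ ℓ

end Fermat.Agent.Kronecker
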