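/-
Cluster B, KRONECKER congruence (helper20): two auxiliary facts on valuation subrings.
-/
import Mathlib
import Fermat.Agent.Lib.Kronecker.Interface
import Fermat.Agent.Lib.Kronecker.ProdDefs
import Fermat.Agent.Lib.Kronecker.Congruence
import Fermat.Agent.Lib.GaussInt.Galois

set_option autoImplicit false
noncomputable section
namespace Fermat.Agent.Kronecker
open ModularCurve Fermat.Agent.F3 Fermat.Agent.F3G Fermat.Agent.GaussInt

/-- the residue field of a place over `ℓ` has characteristic `ℓ` -/
theorem charP_residueField_of_liesOverPrime {L : Type*} [Field L] (A : ValuationSubring L)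
    (ℓ : ℕ) (hℓ : ℓ.Prime) (hA : A.LiesOverPrime ℓ) : CharP (IsLocalRing.ResidueField A) ℓ := by
  rw [CharP.charP_iff_prime_eq_zero hℓ]
  have h1 : ((ℓ : A) : L) ∈ A.nonunits := by
    have : ((ℓ : A) : L) = (ℓ : L) := by simp
    rw [this]
    exact hA
  have h2 : (ℓ : A) ∈ IsLocalRing.maximalIdeal A := by
    rw [IsLocalRing.mem_maximalIdeal]
    exact ValuationSubring.coe_mem_nonunits_iff.mp h1
  have h3 := (IsLocalRing.residue_eq_zero_iff (ℓ : A)).mpr h2
  rwa [map_natCast] at h3

/-- a root of unity lies in every valuation subring -/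
theorem mem_valuationSubring_of_pow_eq_one {L : Type*} [Field L] (A : ValuationSubring L)
    {ζ : L} {n : ℕ} (hn : 0 < n) (hζ : ζ ^ n = 1) : ζ ∈ A := by
  rcases A.mem_or_inv_mem ζ with h | h
  · exact h
  · have : ζ = (ζ⁻¹) ^ (n - 1) := by
      have hζ0 : ζ ≠ 0 := by
        rintro rfl
        rw [zero_pow hn.ne'] at hζ
        exact zero_ne_one hζ
      rw [inv_pow]
      apply eq_inv_of_mul_eq_one_left
      rw [← pow_succ', Nat.sub_add_cancel hn, hζ]
    rw [this]
    exact pow_mem h _

end Fermat.Agent.Kronecker
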