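/-
Cluster B, KRONECKER congruence (helper20 + helper42): the product formula PROD and the
Kronecker congruence, UNCONDITIONAL.

* `normProductFormula : ℓ.Prime → ¬ ℓ ∣ N → NormProductFormula N ℓ`
* `kroneckerAt N : KroneckerAt N`
-/
import Fermat.Agent.Lib.Kronecker.ConjExp
import Fermat.Agent.Lib.Kronecker.NormProd
import Fermat.Agent.Lib.Kronecker.KroneckerAt

set_option autoImplicit false

noncomputable section

namespace Fermat.Agent.Kronecker

/-- **PROD**: `(T_ℓ y)(q^ℓ) = y(q^{ℓ²}) · ∏_{b<ℓ} y(ζ^b q)` for a prime `ℓ ∤ N`. -/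
theorem normProductFormula (N ℓ : ℕ) [NeZero N] [NeZero ℓ] (hℓ : ℓ.Prime) (hℓN : ¬ ℓ ∣ N) :
    NormProductFormula N ℓ :=
  normProductFormula_of_conjugateExpansions N ℓ hℓ hℓN
    (conjugateExpansions N ℓ ((Nat.Prime.coprime_iff_not_dvd hℓ).mpr hℓN))

/-- **KRONECKER congruence** at every level `N`. -/
theorem kroneckerAt (N : ℕ) [NeZero N] : KroneckerAt N :=
  kroneckerAt_of_normProductFormula N fun ℓ hℓ hℓN =>
    haveI : NeZero ℓ := ⟨hℓ.ne_zero⟩
    normProductFormula N ℓ hℓ hℓN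

end Fermat.Agent.Kronecker
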